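import Mathlib

/-!
# S52, block (I): algebraic identities for the 3-division quartic

`irrPhi a b u = u^4 - 6 a u^2 - 8 b u - 3 a^2` is (up to the factor `6912` and the substitution
`u = 12 x + b₂`) the 3-division polynomial of a Weierstrass curve with `c₄ = a`, `c₆ = b`.
-/

set_option autoImplicit false

namespace Fermat.Agent.S52

variable {R : Type*} [CommRing R]

/-- the 3-division quartic in the coordinate `u = 12 x + b₂`. -/
def irrPhi (a b u : R) : R := u ^ 4 - 6 * a * u ^ 2 - 8 * b * u - 3 * a ^ 2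

/-- a quarter of the `u`-derivative of `irrPhi`. -/
def irrG (a b u : R) : R := u ^ 3 - 3 * a * u - 2 * b

/-- divided difference of `irrPhi`. -/
def irrQ (a b u v : R) : R := u ^ 3 + u ^ 2 * v + u * v ^ 2 + v ^ 3 - 6 * a * (u + v) - 8 * b

theorem irrPhi_sub (a b u v : R) : irrPhi a b u - irrPhi a b v = (u - v) * irrQ a b u v := by
  simp only [irrPhi, irrQ]; ring

theorem irrQ_eq (a b u v : R) :
    irrQ a b u v = 4 * irrG a b u + (v - u) * (3 * u ^ 2 + 2 * u * v + v ^ 2 - 6 * a) := by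
  simp only [irrG, irrQ]; ring

/-- the valuation identity. -/
theorem irr_val_identity (a b u : R) (h : irrPhi a b u = 0) :
    256 * a ^ 3 * irrG a b u ^ 6 =
      (irrG a b u ^ 2 + 4 * (a ^ 3 - b ^ 2)) * (irrG a b u ^ 2 + 36 * (a ^ 3 - b ^ 2)) ^ 3 := by
  simp only [irrPhi, irrG] at h ⊢
  linear_combination (-(u^20 - 18*u^18*a - 8*u^17*b + 147*u^16*a^2 + 144*u^15*a*b - 828*u^14*a^3 - 64*u^14*b^2 - 1008*u^13*a^2*b + 3735*u^12*a^4 + 768*u^12*a*b^2 + 4608*u^11*a^3*b + 384*u^11*b^3 - 13122*u^10*a^5 - 3648*u^10*a^2*b^2 - 16776*u^9*a^4*b - 4992*u^9*a*b^3 + 34965*u^8*a^6 + 1792*u^8*b^4 + 45360*u^7*a^5*b + 22656*u^7*a^2*b^3 - 73872*u^6*a^7 + 62208*u^6*a^4*b^2 - 13824*u^6*a*b^4 - 81216*u^5*a^6*b - 28800*u^5*a^3*b^3 - 4096*u^5*b^5 + 111456*u^4*a^8 - 196992*u^4*a^5*b^2 + 34560*u^4*a^2*b^4 + 103680*u^3*a^7*b - 73728*u^3*a^4*b^3 + 30720*u^3*a*b^5 - 62208*u^2*a^9 + 138240*u^2*a^6*b^2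 + 18432*u^2*a^3*b^4 - 16384*u^2*b^6 - 82944*u*a^8*b + 165888*u*a^5*b^3 - 49152*u*a^2*b^5 - 62208*a^10 + 165888*a^7*b^2 - 147456*a^4*b^4 + 49152*a*b^6)) * h

theorem irrPhi_node (a b u : R) :
    a ^ 4 * irrPhi a b u = (a * u + b) ^ 3 * (a * u - 3 * b)
      - (a ^ 3 - b ^ 2) * (6 * a ^ 2 * u ^ 2 + 8 * a * b * u + 3 * (a ^ 3 + b ^ 2)) := by
  simp only [irrPhi]; ring

theorem irrG_node (a b u : R) :
    a ^ 3 * irrG a b u = (a * u + b) ^ 2 * (a * u - 2 * b) - (a ^ 3 - b ^ 2) * (3 * a * u + 2 * b) := by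
  simp only [irrG]; ring

/-- the rescaled expansion of `irrPhi` around a root with derivative `e`. -/
def irrGG (a ξ e α β y : R) : R :=
  y + (6 * ξ ^ 2 - 6 * a) * y ^ 2 + 4 * ξ * e * y ^ 3 + e ^ 2 * y ^ 4 - 6 * α * (ξ + e * y) ^ 2
    - 8 * β * (ξ + e * y) - 6 * a * α - 3 * e ^ 2 * α ^ 2

theorem irrPhi_expand (a b ξ α β y : R) :
    irrPhi (a + (4 * irrG a b ξ) ^ 2 * α) (b + (4 * irrG a b ξ) ^ 2 * β) (ξ + 4 * irrG a b ξ * y) =
      irrPhi a b ξ + (4 * irrG a b ξ) ^ 2 * irrGG a ξ (4 * irrG a b ξ) α β y := by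
  simp only [irrPhi, irrG, irrGG]; ring

end Fermat.Agent.S52
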