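import Fermat.Agent.S51.Core
import Fermat.Agent.S52.Irred.Ident
import Fermat.Prelude.Def_FLTPrelim_ModularRep

/-!
# S52, block (I): Galois glue.  No integer root of the 3-division quartic ⟹ `W[3]` irreducible.
-/

set_option autoImplicit false
open WeierstrassCurve WeierstrassCurve.Affine WeierstrassCurve.Affine.Point Polynomial

namespace Fermat.Agent.S52

open Fermat.Agent.S51

local notation "Qb" => AlgebraicClosure ℚ

/-- reducibility of `E[3]` gives a rational root of the 3-division polynomial. -/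
theorem irr_exists_root_of_reducible (E : WeierstrassCurve ℚ) (hΔ : E.Δ ≠ 0)
    (h3 : ¬ GaloisRepIsIrreducible (K := Qb) ℚ E 3) : ∃ x : ℚ, psi3X E x = 0 := by
  have hVΔ : (E⁄Qb).Δ ≠ 0 := by rw [Δ_baseChange]; exact (_root_.map_ne_zero _).2 hΔ
  have hK3 : (3 : Qb) ≠ 0 := by norm_num
  have : Fact (Nat.Prime 3) := ⟨Nat.prime_three⟩
  obtain ⟨N3, hN3s, hN3b, hN3t⟩ := exists_stable_line E 3 (nontrivial_three_torsion hVΔ hK3) h3
  obtain ⟨hfin3, hcard3⟩ := finite_card_three_torsion_le (W := E⁄Qb) hK3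
  obtain ⟨T, hT0, hT3, hTσ⟩ := exists_smul_eq_nsmul E 3 hfin3 (by simpa using hcard3) N3 hN3s
    hN3b hN3t
  have hxTfix : ∀ σ : Qb ≃ₐ[ℚ] Qb, σ (xc T) = xc T := by
    intro σ
    obtain ⟨k, hk, hk0⟩ := hTσ σ
    rw [← xc_smul, hk, xc_nsmul_three T hT3 k hk0]
  obtain ⟨rT, hrT⟩ := exists_rat_of_fixed _ hxTfix
  rcases T with _ | ⟨xT, yT, hT⟩
  · exact absurd rfl hT0
  obtain ⟨hpsiT, hfT⟩ := three_torsion_rel hT hT3
  simp only [xc_some] at hrT
  refine ⟨rT, ?_⟩
  apply (algebraMap ℚ Qb).injective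
  rw [← psi3X_baseChange, hrT, hpsiT, _root_.map_zero]

theorem irrPhi_eq_psi3X {F : Type*} [Field F] (E : WeierstrassCurve F) (x : F) :
    irrPhi E.c₄ E.c₆ (12 * x + E.b₂) = 6912 * psi3X E x := by
  simp only [irrPhi, psi3X, WeierstrassCurve.c₄, WeierstrassCurve.c₆, WeierstrassCurve.b₂,
    WeierstrassCurve.b₄, WeierstrassCurve.b₆, WeierstrassCurve.b₈]
  ring

/-- a rational root of the (monic, integral) quartic is an integer. -/
theorem irr_int_of_rat_root (a b : ℤ) (u : ℚ) (hu : irrPhi (a : ℚ) (b : ℚ) u = 0) :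
    ∃ m : ℤ, irrPhi a b m = 0 := by
  set p : ℤ[X] := X ^ 4 - C (6 * a) * X ^ 2 - C (8 * b) * X - C (3 * a ^ 2) with hp
  have hmonic : p.Monic := by
    rw [hp]
    monicity!
  have hroot : aeval u p = 0 := by
    rw [hp]
    simp only [map_sub, _root_.map_mul, map_pow, aeval_X, aeval_C]
    simp only [irrPhi] at hu
    simp only [eq_intCast]
    push_cast
    linear_combination hu
  obtain ⟨m, hm⟩ := isInteger_of_is_root_of_monic hmonic hroot
  refine ⟨m, ?_⟩
  have hm' : (m : ℚ) = u := by simpa using hm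
  have : ((irrPhi a b m : ℤ) : ℚ) = 0 := by
    rw [← hu, ← hm']
    simp only [irrPhi]
    push_cast
    ring
  exact_mod_cast this

/-- **Glue**: if the 3-division quartic has no integer root then `W[3]` is irreducible. -/
theorem irr_modRep_three (W : WeierstrassCurve ℤ) (hΔ : W.Δ ≠ 0)
    (h : ∀ u : ℤ, irrPhi W.c₄ W.c₆ u ≠ 0) : W.ModRepIsIrreducible 3 := by
  by_contra h3
  have hΔQ : (W.map (Int.castRingHom ℚ)).Δ ≠ 0 := by
    rw [WeierstrassCurve.map_Δ]
    simpa using hΔ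
  obtain ⟨x, hx⟩ := irr_exists_root_of_reducible (W.map (Int.castRingHom ℚ)) hΔQ h3
  have h1 := irrPhi_eq_psi3X (W.map (Int.castRingHom ℚ)) x
  rw [hx, mul_zero, WeierstrassCurve.map_c₄, WeierstrassCurve.map_c₆] at h1
  obtain ⟨m, hm⟩ := irr_int_of_rat_root W.c₄ W.c₆ _ (by simpa using h1)
  exact h m hm

end Fermat.Agent.S52
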