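import Mathlib

/-!
# S52, block (I): the valuation lemma
-/

set_option autoImplicit false

namespace Fermat.Agent.S52

variable {R : Type*} [CommRing R] [IsDomain R]

private theorem irr_dvd_aux {p a g X : R} (hp : Prime p) (h2 : ¬ p ∣ 2) (ha : ¬ p ∣ a)
    (h : 256 * a ^ 3 * g ^ 6 = p * X) : p ∣ g := by
  have h1 : p ∣ 256 * a ^ 3 * g ^ 6 := ⟨X, h⟩
  rcases hp.dvd_or_dvd h1 with h1 | h1
  · rcases hp.dvd_or_dvd h1 with h1 | h1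
    · exfalso
      have : (256 : R) = 2 ^ 8 := by norm_num
      rw [this] at h1
      exact h2 (hp.dvd_of_dvd_pow h1)
    · exact absurd (hp.dvd_of_dvd_pow h1) ha
  · exact hp.dvd_of_dvd_pow h1

/-- If `v_p(E) = 5`, `p ∤ 6a` and `256 a³ g⁶ = (g² + 4E)(g² + 36E)³` then `p ∤ g`. -/
theorem irr_not_dvd_G {p a g E' : R} (hp : Prime p) (h2 : ¬ p ∣ 2) (h3 : ¬ p ∣ 3) (ha : ¬ p ∣ a)
    (hE' : ¬ p ∣ E')
    (h : 256 * a ^ 3 * g ^ 6 = (g ^ 2 + 4 * (p ^ 5 * E')) * (g ^ 2 + 36 * (p ^ 5 * E')) ^ 3) :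
    ¬ p ∣ g := by
  have hp0 : p ≠ 0 := hp.ne_zero
  rintro ⟨g1, rfl⟩
  have e1 : 256 * a ^ 3 * g1 ^ 6 =
      p * (p * ((g1 ^ 2 + 4 * (p ^ 3 * E')) * (g1 ^ 2 + 36 * (p ^ 3 * E')) ^ 3)) := by
    apply mul_left_cancel₀ (pow_ne_zero 6 hp0)
    linear_combination h
  obtain ⟨g2, rfl⟩ := irr_dvd_aux hp h2 ha e1
  have e2 : 256 * a ^ 3 * g2 ^ 6 =
      p * (p ^ 3 * ((g2 ^ 2 + 4 * (p * E')) * (g2 ^ 2 + 36 * (p * E')) ^ 3)) := by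
    apply mul_left_cancel₀ (pow_ne_zero 6 hp0)
    linear_combination e1
  obtain ⟨g3, rfl⟩ := irr_dvd_aux hp h2 ha e2
  have e3 : 256 * a ^ 3 * g3 ^ 6 =
      p * (p * ((p * g3 ^ 2 + 4 * E') * (p * g3 ^ 2 + 36 * E') ^ 3)) := by
    apply mul_left_cancel₀ (pow_ne_zero 6 hp0)
    linear_combination e2
  obtain ⟨g4, rfl⟩ := irr_dvd_aux hp h2 ha e3
  have e4 : p * (p ^ 3 * (256 * a ^ 3 * g4 ^ 6)) =
      (p ^ 3 * g4 ^ 2 + 4 * E') * (p ^ 3 * g4 ^ 2 + 36 * E') ^ 3 := by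
    apply mul_left_cancel₀ (pow_ne_zero 2 hp0)
    linear_combination e3
  have h4 : ¬ p ∣ 4 * E' := by
    intro hd
    rcases hp.dvd_or_dvd hd with hd | hd
    · have : (4 : R) = 2 ^ 2 := by norm_num
      rw [this] at hd
      exact h2 (hp.dvd_of_dvd_pow hd)
    · exact hE' hd
  have h36 : ¬ p ∣ 36 * E' := by
    intro hd
    rcases hp.dvd_or_dvd hd with hd | hd
    · have : (36 : R) = 2 ^ 2 * 3 ^ 2 := by norm_num
      rw [this] at hd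
      rcases hp.dvd_or_dvd hd with hd | hd
      · exact h2 (hp.dvd_of_dvd_pow hd)
      · exact h3 (hp.dvd_of_dvd_pow hd)
    · exact hE' hd
  have hd : p ∣ (p ^ 3 * g4 ^ 2 + 4 * E') * (p ^ 3 * g4 ^ 2 + 36 * E') ^ 3 := ⟨_, e4.symm⟩
  have hpp : p ∣ p ^ 3 * g4 ^ 2 := Dvd.dvd.mul_right (dvd_pow_self p (by norm_num)) _
  rcases hp.dvd_or_dvd hd with hd | hd
  · exact h4 ((dvd_add_right hpp).1 hd)
  · exact h36 ((dvd_add_right hpp).1 (hp.dvd_of_dvd_pow hd))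

end Fermat.Agent.S52
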