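import Fermat.Agent.S52.Irred.Ident
import Fermat.Agent.S52.Irred.Val

/-!
# S52, block (I): the 3-division quartic of the family has no polynomial root
-/

set_option autoImplicit false

open Polynomial

namespace Fermat.Agent.S52

variable {K : Type*} [Field K] [CharZero K]

private theorem irr_not_dvd_natCast {π : K[X]} (hπ : Prime π) (n : ℕ) (hn : n ≠ 0) :
    ¬ π ∣ (n : K[X]) := by
  intro h
  apply hπ.not_isUnit
  refine isUnit_of_dvd_unit h ?_
  rw [← C_eq_natCast]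
  exact isUnit_C.2 (isUnit_iff_ne_zero.2 (by exact_mod_cast hn))

theorem irr_no_poly_root (A B D P : K[X]) (κ : K) (hκ : κ ≠ 0)
    (h1 : A ^ 3 - B ^ 2 = C κ * D ^ 5) (h2 : IsCoprime A D)
    (h3 : ∃ a b c : K, c ≠ 0 ∧ C a * D * derivative A - C b * A * derivative D = C c * B)
    (h4 : A.natDegree ≤ 20) (h4' : 4 ≤ D.natDegree) : irrPhi A B P ≠ 0 := by
  intro hP
  have hid := irr_val_identity A B P hP
  set g := irrG A B P with hg
  rw [h1] at hid
  have hD0 : D ≠ 0 := by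
    rintro rfl
    simp at h4'
  have hE0 : C κ * D ^ 5 ≠ 0 := mul_ne_zero (C_ne_zero.2 hκ) (pow_ne_zero _ hD0)
  have hg0 : g ≠ 0 := by
    intro h0
    rw [h0] at hid
    have : (4 * (C κ * D ^ 5)) * (36 * (C κ * D ^ 5)) ^ 3 = 0 := by
      linear_combination -hid
    have h4ne : (4 : K[X]) ≠ 0 := by norm_num
    have h36ne : (36 : K[X]) ≠ 0 := by norm_num
    exact (mul_ne_zero (mul_ne_zero h4ne hE0) (pow_ne_zero 3 (mul_ne_zero h36ne hE0))) this
  have hgu : IsUnit g := by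
    by_contra hnu
    obtain ⟨π, hπi, hπg⟩ := WfDvdMonoid.exists_irreducible_factor hnu hg0
    have hπ : Prime π := hπi.prime
    have hn2 : ¬ π ∣ (2 : K[X]) := by exact_mod_cast irr_not_dvd_natCast hπ 2 (by norm_num)
    have hn3 : ¬ π ∣ (3 : K[X]) := by exact_mod_cast irr_not_dvd_natCast hπ 3 (by norm_num)
    have hn4 : ¬ π ∣ (4 : K[X]) := by exact_mod_cast irr_not_dvd_natCast hπ 4 (by norm_num)
    have hn36 : ¬ π ∣ (36 : K[X]) := by exact_mod_cast irr_not_dvd_natCast hπ 36 (by norm_num)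
    have hnC : ∀ c : K, c ≠ 0 → ¬ π ∣ C c := by
      intro c hc h
      exact hπ.not_isUnit (isUnit_of_dvd_unit h (isUnit_C.2 (isUnit_iff_ne_zero.2 hc)))
    have hg2 : π ∣ g ^ 2 := Dvd.dvd.pow hπg (by norm_num)
    have hL : π ∣ (g ^ 2 + 4 * (C κ * D ^ 5)) * (g ^ 2 + 36 * (C κ * D ^ 5)) ^ 3 := by
      rw [← hid]
      exact Dvd.dvd.mul_left (Dvd.dvd.pow hπg (by norm_num)) _
    have hπE : π ∣ C κ * D ^ 5 := by
      rcases hπ.dvd_or_dvd hL with h | h
      · exact (hπ.dvd_or_dvd ((dvd_add_right hg2).1 h)).resolve_left hn4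
      · exact (hπ.dvd_or_dvd ((dvd_add_right hg2).1 (hπ.dvd_of_dvd_pow h))).resolve_left hn36
    have hπD : π ∣ D := hπ.dvd_of_dvd_pow ((hπ.dvd_or_dvd hπE).resolve_left (hnC κ hκ))
    have hπA : ¬ π ∣ A := fun h => hπ.not_isUnit (h2.isUnit_of_dvd' h hπD)
    obtain ⟨D1, hD1⟩ := hπD
    have hπD1 : ¬ π ∣ D1 := by
      rintro ⟨D2, hD2⟩
      obtain ⟨a, b, c, hc, h3⟩ := h3
      have hD' : π ∣ derivative D := by
        rw [hD1, hD2]
        simp only [derivative_mul]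
        refine dvd_add ?_ ?_
        · exact Dvd.dvd.mul_left (Dvd.intro _ rfl) _
        · exact Dvd.intro _ rfl
      have hB : π ∣ C c * B := by
        rw [← h3]
        refine dvd_sub ?_ ?_
        · exact Dvd.dvd.mul_right (Dvd.dvd.mul_left ⟨D1, hD1⟩ _) _
        · exact Dvd.dvd.mul_left hD' _
      have hB' : π ∣ B := (hπ.dvd_or_dvd hB).resolve_left (hnC c hc)
      have hA3 : π ∣ A ^ 3 := by
        have : A ^ 3 = C κ * D ^ 5 + B ^ 2 := by linear_combination h1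
        rw [this]
        exact dvd_add hπE (Dvd.dvd.pow hB' (by norm_num))
      exact hπA (hπ.dvd_of_dvd_pow hA3)
    have hE' : ¬ π ∣ C κ * D1 ^ 5 := by
      intro h
      rcases hπ.dvd_or_dvd h with h | h
      · exact hnC κ hκ h
      · exact hπD1 (hπ.dvd_of_dvd_pow h)
    have hE5 : C κ * D ^ 5 = π ^ 5 * (C κ * D1 ^ 5) := by rw [hD1]; ring
    rw [hE5] at hid
    exact irr_not_dvd_G hπ hn2 hn3 hπA hE' hid hπg
  obtain ⟨γ, hγ, hγg⟩ := Polynomial.isUnit_iff.1 hgu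
  have hγ0 : γ ≠ 0 := hγ.ne_zero
  rw [← hγg] at hid
  have hdeg : ∀ m : K, m ≠ 0 → ((C γ) ^ 2 + C m * (C κ * D ^ 5)).natDegree = 5 * D.natDegree := by
    intro m hm
    rw [← C_pow, natDegree_C_add, natDegree_C_mul hm, natDegree_C_mul hκ, natDegree_pow]
  have hne : ∀ m : K, m ≠ 0 → ((C γ) ^ 2 + C m * (C κ * D ^ 5)) ≠ 0 := by
    intro m hm h0
    have := hdeg m hm
    rw [h0, natDegree_zero] at this
    omega
  have h4C : (4 : K[X]) = C 4 := (map_ofNat C 4).symm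
  have h36C : (36 : K[X]) = C 36 := (map_ofNat C 36).symm
  have hR : (((C γ) ^ 2 + 4 * (C κ * D ^ 5)) * ((C γ) ^ 2 + 36 * (C κ * D ^ 5)) ^ 3).natDegree
      = 20 * D.natDegree := by
    rw [h4C, h36C, natDegree_mul (hne 4 (by norm_num)) (pow_ne_zero 3 (hne 36 (by norm_num))),
      natDegree_pow, hdeg 4 (by norm_num), hdeg 36 (by norm_num)]
    ring
  have hLd : (256 * A ^ 3 * (C γ) ^ 6).natDegree ≤ 60 := by
    have h256 : (256 : K[X]) = C 256 := (map_ofNat C 256).symm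
    rw [h256, ← C_pow, mul_assoc, mul_comm (A ^ 3), ← mul_assoc, ← C_mul]
    refine (natDegree_C_mul_le _ _).trans ((natDegree_pow_le).trans ?_)
    omega
  rw [hid, hR] at hLd
  omega

end Fermat.Agent.S52
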