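import Mathlib

/-!
# S52, block (I), Step A: a prime dividing a value of `D` exactly once
-/

set_option autoImplicit false

open Polynomial

namespace Fermat.Agent.S52

/-- a nonconstant integer polynomial avoids `0, 1, -1` at some multiple of `N`. -/
theorem irr_exists_large_value (D : ℤ[X]) (hdeg : 1 ≤ D.natDegree) (N : ℤ) (hN : N ≠ 0) :
    ∃ s : ℤ, D.eval (N * s) ≠ 0 ∧ D.eval (N * s) ≠ 1 ∧ D.eval (N * s) ≠ -1 := by
  have hne : ∀ c : ℤ, D - C c ≠ 0 := by
    intro c h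
    have : D = C c := by linear_combination h
    rw [this, natDegree_C] at hdeg
    omega
  set Q : ℤ[X] := (D - C 0) * (D - C 1) * (D - C (-1)) with hQ
  have hQ0 : Q ≠ 0 := mul_ne_zero (mul_ne_zero (hne 0) (hne 1)) (hne (-1))
  have hinf : (Set.range (fun s : ℤ => N * s)).Infinite :=
    Set.infinite_range_of_injective (fun x y h => mul_left_cancel₀ hN h)
  obtain ⟨t, ⟨s, rfl⟩, hs⟩ := hinf.exists_notMem_finset Q.roots.toFinset
  refine ⟨s, ?_, ?_, ?_⟩
  all_goals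
    intro h
    apply hs
    rw [Multiset.mem_toFinset, mem_roots hQ0, IsRoot.def, hQ]
    simp only [eval_mul, eval_sub, eval_C]
    simp [h]

theorem irr_stepA (A B D U V : ℤ[X]) (κ k a b c : ℤ) (hk : k ≠ 0) (hc : c ≠ 0)
    (h1 : A ^ 3 - B ^ 2 = C κ * D ^ 5) (h2 : U * A + V * D = C k)
    (h3 : C a * D * derivative A - C b * A * derivative D = C c * B)
    (h5 : D.eval 0 = 1) (hdeg : 1 ≤ D.natDegree) (M : ℤ) (hM : M ≠ 0) (N0 : ℤ) (hN0 : N0 ≠ 0) :
    ∃ (t1 : ℤ) (r : ℕ), r.Prime ∧ M ∣ t1 ∧ ¬ (r : ℤ) ∣ N0 ∧ (r : ℤ) ∣ D.eval t1 ∧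
      ¬ (r : ℤ) ^ 2 ∣ D.eval t1 := by
  set N : ℤ := M * N0 * k * c with hN
  have hNne : N ≠ 0 := mul_ne_zero (mul_ne_zero (mul_ne_zero hM hN0) hk) hc
  obtain ⟨s, hs0, hs1, hs2⟩ := irr_exists_large_value D hdeg N hNne
  set t : ℤ := N * s with ht
  have habs : (D.eval t).natAbs ≠ 1 := by
    intro h
    rcases Int.natAbs_eq (D.eval t) with h' | h' <;> rw [h] at h'
    · exact hs1 (by simpa using h')
    · exact hs2 (by simpa using h')
  set r := (D.eval t).natAbs.minFac with hr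
  have hrp : r.Prime := Nat.minFac_prime habs
  have hrP : Prime (r : ℤ) := Nat.prime_iff_prime_int.1 hrp
  have hrD : (r : ℤ) ∣ D.eval t := Int.natCast_dvd.2 (Nat.minFac_dvd _)
  have hrN : ¬ (r : ℤ) ∣ N := by
    intro h
    have h' : (r : ℤ) ∣ t := Dvd.dvd.mul_right h s
    have h'' : t - 0 ∣ D.eval t - D.eval 0 := sub_dvd_eval_sub _ _ _
    rw [sub_zero, h5] at h''
    have : (r : ℤ) ∣ 1 := by
      have h3 := dvd_sub hrD (h'.trans h'')
      simpa using h3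
    exact hrP.not_dvd_one this
  have hrM : ¬ (r : ℤ) ∣ M := fun h => hrN (by
    rw [hN]; exact Dvd.dvd.mul_right (Dvd.dvd.mul_right (Dvd.dvd.mul_right h _) _) _)
  have hrN0 : ¬ (r : ℤ) ∣ N0 := fun h => hrN (by
    rw [hN]; exact Dvd.dvd.mul_right (Dvd.dvd.mul_right (Dvd.dvd.mul_left h _) _) _)
  have hrk : ¬ (r : ℤ) ∣ k := fun h => hrN (by
    rw [hN]; exact Dvd.dvd.mul_right (Dvd.dvd.mul_left h _) _)
  have hrc : ¬ (r : ℤ) ∣ c := fun h => hrN (by rw [hN]; exact Dvd.dvd.mul_left h _)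
  have hMt : M ∣ t := by
    rw [ht, hN]
    exact Dvd.dvd.mul_right (Dvd.dvd.mul_right (Dvd.dvd.mul_right (Dvd.intro _ rfl) _) _) _
  have hrD' : ¬ (r : ℤ) ∣ (derivative D).eval t := by
    intro h
    have e3 := congrArg (eval t) h3
    have e1 := congrArg (eval t) h1
    have e2 := congrArg (eval t) h2
    simp only [eval_mul, eval_sub, eval_add, eval_pow, eval_C] at e1 e2 e3
    have hB : (r : ℤ) ∣ c * B.eval t := by
      rw [← e3]
      exact dvd_sub (Dvd.dvd.mul_right (Dvd.dvd.mul_left hrD _) _) (Dvd.dvd.mul_left h _)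
    have hB' : (r : ℤ) ∣ B.eval t := (hrP.dvd_or_dvd hB).resolve_left hrc
    have hA3 : (r : ℤ) ∣ A.eval t ^ 3 := by
      have : A.eval t ^ 3 = κ * D.eval t ^ 5 + B.eval t ^ 2 := by linear_combination e1
      rw [this]
      exact dvd_add (Dvd.dvd.mul_left (Dvd.dvd.pow hrD (by norm_num)) _)
        (Dvd.dvd.pow hB' (by norm_num))
    have hA : (r : ℤ) ∣ A.eval t := hrP.dvd_of_dvd_pow hA3
    apply hrk
    rw [← e2]
    exact dvd_add (Dvd.dvd.mul_left hA _) (Dvd.dvd.mul_left hrD _)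
  by_cases hsq : (r : ℤ) ^ 2 ∣ D.eval t
  · obtain ⟨q, hq⟩ := binomExpansion D t (r * M)
    refine ⟨t + r * M, r, hrp, dvd_add hMt (Dvd.intro_left _ rfl), hrN0, ?_, ?_⟩
    · rw [hq]
      refine dvd_add (dvd_add hrD ?_) ?_
      · exact Dvd.dvd.mul_left (Dvd.intro _ rfl) _
      · exact Dvd.dvd.mul_left (Dvd.dvd.pow (Dvd.intro _ rfl) (by norm_num)) _
    · intro h
      rw [hq] at h
      have hlast : (r : ℤ) ^ 2 ∣ q * (r * M) ^ 2 := ⟨q * M ^ 2, by ring⟩
      have h' := (dvd_add_left hlast).1 h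
      have h'' := (dvd_add_right hsq).1 h'
      have h3 : (r : ℤ) * r ∣ r * ((derivative D).eval t * M) := by
        have : (r : ℤ) * ((derivative D).eval t * M) = (derivative D).eval t * (r * M) := by ring
        rw [this, ← sq]; exact h''
      have h4 := (mul_dvd_mul_iff_left hrP.ne_zero).1 h3
      rcases hrP.dvd_or_dvd h4 with h4 | h4
      · exact hrD' h4
      · exact hrM h4
  · exact ⟨t, r, hrp, hMt, hrN0, hrD, hsq⟩

end Fermat.Agent.S52
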