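import Mathlib

/-!
# S52, block (I): Taylor polynomials of an implicit function (Hensel in `R[X]` modulo `X^n`)
-/

set_option autoImplicit false

open Polynomial

namespace Fermat.Agent.S52

variable {R : Type*} [CommRing R]

theorem irr_eval_eval_zero (F : R[X][X]) (P : R[X]) :
    (F.eval P).eval 0 = (F.eval (C (P.eval 0))).eval 0 := by
  have h1 : (X : R[X]) ∣ P - C (P.eval 0) := by
    rw [X_dvd_iff, coeff_zero_eq_eval_zero]; simp
  have h2 : (X : R[X]) ∣ F.eval P - F.eval (C (P.eval 0)) := h1.trans (sub_dvd_eval_sub _ _ _)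
  rw [X_dvd_iff, coeff_zero_eq_eval_zero, eval_sub, sub_eq_zero] at h2
  exact h2

/-- Taylor polynomials of the implicit function `F(X, P(X)) = 0`, `P(0) = ξ`. -/
theorem irr_hensel_taylor (F : R[X][X]) (ξ : R) (h0 : (F.eval (C ξ)).eval 0 = 0)
    (h1 : IsUnit ((F.derivative.eval (C ξ)).eval 0)) (n : ℕ) :
    ∃ P : R[X], P.eval 0 = ξ ∧ P.natDegree ≤ n ∧ (X : R[X]) ^ (n + 1) ∣ F.eval P := by
  induction n with
  | zero =>
    refine ⟨C ξ, by simp, by simp, ?_⟩
    rw [zero_add, pow_one, X_dvd_iff, coeff_zero_eq_eval_zero]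
    exact h0
  | succ n ih =>
    obtain ⟨P, hP0, hPd, G, hG⟩ := ih
    obtain ⟨e, he⟩ := h1
    set c : R := -(G.eval 0 * (↑e⁻¹ : R)) with hc
    set δ : R[X] := C c * X ^ (n + 1) with hδ
    obtain ⟨k, hk⟩ := binomExpansion F P δ
    refine ⟨P + δ, ?_, ?_, ?_⟩
    · simp [hδ, hP0]
    · refine (natDegree_add_le _ _).trans (max_le (hPd.trans (Nat.le_succ n)) ?_)
      exact natDegree_C_mul_X_pow_le _ _
    · rw [hk, hG]
      have h3 : (X : R[X]) ∣ G + F.derivative.eval P * C c := by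
        rw [X_dvd_iff, coeff_zero_eq_eval_zero, eval_add, eval_mul, irr_eval_eval_zero, hP0, ← he,
          eval_C, hc]
        have : (e : R) * (↑e⁻¹ : R) = 1 := by simp
        linear_combination (-(G.eval 0)) * this
      obtain ⟨H, hH⟩ := h3
      refine ⟨H + k * C c ^ 2 * X ^ n, ?_⟩
      have : X ^ (n + 1) * G + eval P (derivative F) * δ + k * δ ^ 2
          = X ^ (n + 1) * (G + F.derivative.eval P * C c) + k * C c ^ 2 * (X ^ (n + 1)) ^ 2 := by
        rw [hδ]; ring
      rw [this, hH]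
      ring

end Fermat.Agent.S52
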