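import Fermat.Agent.S52.Irred.Ident
import Fermat.Agent.S52.Irred.Hensel

/-!
# S52, block (I): integral Taylor polynomial of the root of the quartic, growth of polynomials
-/

set_option autoImplicit false

open Polynomial

namespace Fermat.Agent.S52

theorem irr_growth (f : ℤ[X]) (n : ℕ) (hn : f.natDegree ≤ n) :
    ∃ C : ℤ, 0 ≤ C ∧ ∀ z : ℤ, 1 ≤ |z| → |f.eval z| ≤ C * |z| ^ n := by
  refine ⟨∑ i ∈ Finset.range (n + 1), |f.coeff i|, Finset.sum_nonneg (fun i _ => abs_nonneg _), ?_⟩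
  intro z hz
  rw [eval_eq_sum_range' (Nat.lt_succ_of_le hn), Finset.sum_mul]
  refine (Finset.abs_sum_le_sum_abs _ _).trans (Finset.sum_le_sum ?_)
  intro i hi
  rw [abs_mul, abs_pow]
  refine mul_le_mul_of_nonneg_left ?_ (abs_nonneg _)
  exact pow_le_pow_right₀ hz (Nat.lt_succ_iff.1 (Finset.mem_range.1 hi))

theorem irr_exists_shift (A : ℤ[X]) (t1 s : ℤ) :
    ∃ α : ℤ[X], α.eval 0 = 0 ∧ ∀ z : ℤ, A.eval (t1 + s * z) = A.eval t1 + s * α.eval z := by
  obtain ⟨q, hq⟩ := sub_dvd_eval_sub (C t1 + C s * X) (C t1) (A.map C)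
  refine ⟨X * q, by simp, ?_⟩
  intro z
  have h := congrArg (eval z) hq
  rw [eval_map, eval_map] at h
  change eval z (A.comp (C t1 + C s * X) - A.comp (C t1)) = _ at h
  simp only [eval_sub, eval_comp, eval_add, eval_mul, eval_C, eval_X] at h
  simp only [eval_mul, eval_X]
  linear_combination h

theorem irr_taylor (A B : ℤ[X]) (t1 ξ : ℤ) (hξ : irrPhi (A.eval t1) (B.eval t1) ξ = 0) (n : ℕ) :
    ∃ P H : ℤ[X], P.natDegree ≤ n ∧ P.eval 0 = ξ ∧ ∀ z : ℤ,
      irrPhi (A.eval (t1 + (4 * irrG (A.eval t1) (B.eval t1) ξ) ^ 2 * z))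
        (B.eval (t1 + (4 * irrG (A.eval t1) (B.eval t1) ξ) ^ 2 * z)) (P.eval z)
        = (4 * irrG (A.eval t1) (B.eval t1) ξ) ^ 2 * (z ^ (n + 1) * H.eval z) := by
  set a1 := A.eval t1 with ha1
  set b1 := B.eval t1 with hb1
  set e := 4 * irrG a1 b1 ξ with he
  obtain ⟨α, hα0, hα⟩ := irr_exists_shift A t1 (e ^ 2)
  obtain ⟨β, hβ0, hβ⟩ := irr_exists_shift B t1 (e ^ 2)
  set G : ℤ[X][X] := irrGG (C (C a1)) (C (C ξ)) (C (C e)) (C α) (C β) X with hG
  have hGeval : ∀ Q : ℤ[X], ∀ z : ℤ,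
      (G.eval Q).eval z = irrGG a1 ξ e (α.eval z) (β.eval z) (Q.eval z) := by
    intro Q z
    simp only [hG, irrGG, eval_add, eval_sub, eval_mul, eval_pow, eval_C, eval_X, eval_ofNat]
  have h0 : (G.eval (C 0)).eval 0 = 0 := by
    rw [hGeval, hα0, hβ0]
    simp [irrGG]
  have h1 : IsUnit (((derivative G).eval (C 0)).eval 0) := by
    have : ((derivative G).eval (C 0)).eval 0 = 1 := by
      simp only [hG, irrGG, derivative_add, derivative_sub, derivative_mul, derivative_pow,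
        derivative_C, derivative_X, derivative_ofNat, eval_add, eval_sub, eval_mul, eval_pow,
        eval_C, eval_X, eval_ofNat, hα0, hβ0, eval_zero, eval_one, eval_natCast]
      simp
    rw [this]; exact isUnit_one
  obtain ⟨Y, hY0, hYd, H, hH⟩ := irr_hensel_taylor G 0 h0 h1 n
  refine ⟨C ξ + C e * Y, H, ?_, by simp [hY0], ?_⟩
  · refine (natDegree_add_le _ _).trans (max_le (by simp) ?_)
    exact (natDegree_C_mul_le _ _).trans hYd
  · intro z
    have h2 := hGeval Y z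
    rw [hH] at h2
    simp only [eval_mul, eval_pow, eval_X] at h2
    have h3 := irrPhi_expand a1 b1 ξ (α.eval z) (β.eval z) (Y.eval z)
    rw [← he, hξ, zero_add, ← h2] at h3
    rw [hα z, hβ z]
    simp only [eval_add, eval_mul, eval_C]
    exact h3

end Fermat.Agent.S52
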