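import Fermat.Agent.S52.Irred.Local
import Fermat.Agent.S52.Irred.StepA
import Fermat.Agent.S52.Irred.Taylor
import Fermat.Agent.S52.Irred.PolyRoot

/-!
# S52, block (I): the abstract Hilbert-irreducibility substitute
-/

set_option autoImplicit false

open Polynomial

namespace Fermat.Agent.S52

/-- transfer to `ℚ[X]`: a polynomial root after an affine substitution is impossible. -/
theorem irr_no_int_poly_root (A B D U V : ℤ[X]) (D0 k a b c : ℤ) (hD0 : D0 ≠ 0) (hk : k ≠ 0)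
    (hc : c ≠ 0) (h1 : A ^ 3 - B ^ 2 = C (1728 * D0) * D ^ 5) (h2 : U * A + V * D = C k)
    (h3 : C a * D * derivative A - C b * A * derivative D = C c * B)
    (h4 : A.natDegree ≤ 20) (h4' : 4 ≤ D.natDegree) (t1 s : ℤ) (hs : s ≠ 0) (P : ℤ[X]) :
    irrPhi (A.comp (C t1 + C s * X)) (B.comp (C t1 + C s * X)) P ≠ 0 := by
  intro hΞ
  set φ := Int.castRingHom ℚ with hφ
  have hinj : Function.Injective φ := Int.cast_injective
  set Linv : ℚ[X] := C (1 / (s : ℚ)) * (X - C (t1 : ℚ)) with hLinv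
  have hsq : (s : ℚ) ≠ 0 := by exact_mod_cast hs
  have hL : ((C t1 + C s * X : ℤ[X]).map φ).comp Linv = X := by
    have e1 : φ t1 = (t1 : ℚ) := rfl
    have e2 : φ s = (s : ℚ) := rfl
    simp only [Polynomial.map_add, Polynomial.map_mul, Polynomial.map_C, map_X, add_comp, mul_comp,
      C_comp, X_comp, e1, e2]
    rw [hLinv, ← mul_assoc, ← C_mul, mul_one_div_cancel hsq]
    simp
  have hcomp : ∀ F : ℤ[X], ((F.comp (C t1 + C s * X)).map φ).comp Linv = F.map φ := by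
    intro F
    rw [Polynomial.map_comp, comp_assoc, hL, comp_X]
  have h := congrArg (fun F : ℤ[X] => (F.map φ).comp Linv) hΞ
  simp only [irrPhi, Polynomial.map_sub, Polynomial.map_mul, Polynomial.map_pow, sub_comp, mul_comp,
    pow_comp, hcomp, Polynomial.map_ofNat, ofNat_comp, Polynomial.map_zero, zero_comp] at h
  refine irr_no_poly_root (A.map φ) (B.map φ) (D.map φ) ((P.map φ).comp Linv) (1728 * D0 : ℚ)
    (by simpa using hD0) ?_ ?_ ?_ ?_ ?_ ?_
  · have := congrArg (Polynomial.map φ) h1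
    simp only [Polynomial.map_sub, Polynomial.map_mul, Polynomial.map_pow, Polynomial.map_C] at this
    rw [this]
    congr 2
    simp [hφ]
  · have := congrArg (Polynomial.map φ) h2
    simp only [Polynomial.map_add, Polynomial.map_mul, map_C] at this
    have hkq : (φ k : ℚ) ≠ 0 := by simpa [hφ] using hk
    refine ⟨C (1 / φ k) * U.map φ, C (1 / φ k) * V.map φ, ?_⟩
    have h' : C (1 / φ k) * U.map φ * A.map φ + C (1 / φ k) * V.map φ * D.map φ
        = C (1 / φ k) * (U.map φ * A.map φ + V.map φ * D.map φ) := by ring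
    rw [h', this, ← C_mul, one_div_mul_cancel hkq, C_1]
  · refine ⟨φ a, φ b, φ c, by simpa [hφ] using hc, ?_⟩
    have := congrArg (Polynomial.map φ) h3
    simpa only [Polynomial.map_sub, Polynomial.map_mul, map_C, derivative_map] using this
  · rw [natDegree_map_eq_of_injective hinj]; exact h4
  · rw [natDegree_map_eq_of_injective hinj]; exact h4'
  · simp only [irrPhi]
    exact h

/-- the key step: for `z = M r^j` with `j` large, an integer root must be the value of the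
Taylor polynomial. -/
theorem irr_key (A B : ℤ[X]) (R t1 ξ M : ℤ) (hR : Prime R) (hR2 : ¬ R ∣ 2)
    (hA1 : ¬ R ∣ A.eval t1)
    (hloc : ∀ t : ℤ, R ^ 2 ∣ t - t1 → ∀ u : ℤ, irrPhi (A.eval t) (B.eval t) u = 0 →
      ¬ R ∣ irrG (A.eval t) (B.eval t) u ∧ R ∣ A.eval t * u - 3 * B.eval t)
    (hξ : irrPhi (A.eval t1) (B.eval t1) ξ = 0) (e : ℤ) (n : ℕ) (P H S : ℤ[X]) (hP0 : P.eval 0 = ξ)
    (hPH : ∀ z : ℤ, irrPhi (A.eval (t1 + e ^ 2 * z)) (B.eval (t1 + e ^ 2 * z)) (P.eval z)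
        = e ^ 2 * (z ^ (n + 1) * H.eval z))
    (hS : ∀ z : ℤ, S.eval z = 15 + 9 * A.eval (t1 + e ^ 2 * z) ^ 2 + 8 * B.eval (t1 + e ^ 2 * z) ^ 2)
    (CS CP : ℤ) (hCS : ∀ z : ℤ, 1 ≤ |z| → |S.eval z| ≤ CS * |z| ^ n)
    (hCP : ∀ z : ℤ, 1 ≤ |z| → |P.eval z| ≤ CP * |z| ^ n) (hM : M ≠ 0)
    (j : ℕ) (hj2 : 2 ≤ j) (hj : (CS + CP) * |M| ^ n < |R| ^ j)
    (u : ℤ) (hu : irrPhi (A.eval (t1 + e ^ 2 * (M * R ^ j))) (B.eval (t1 + e ^ 2 * (M * R ^ j))) u = 0) :
    u = P.eval (M * R ^ j) := by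
  set z : ℤ := M * R ^ j with hz
  set t : ℤ := t1 + e ^ 2 * z with ht
  have hR0 : R ≠ 0 := hR.ne_zero
  have hRz : R ∣ z := Dvd.dvd.mul_left (dvd_pow_self R (by omega)) M
  have hR2t : R ^ 2 ∣ t - t1 := by
    have : t - t1 = e ^ 2 * M * R ^ j := by rw [ht, hz]; ring
    rw [this]
    exact Dvd.dvd.mul_left (pow_dvd_pow R hj2) _
  have hRt : R ∣ t - t1 := (dvd_pow_self R (by norm_num : (2 : ℕ) ≠ 0)).trans hR2t
  obtain ⟨hg, hlin⟩ := hloc t hR2t u hu
  obtain ⟨-, hlin1⟩ := hloc t1 (by simp) ξ hξ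
  have hAA : R ∣ A.eval t - A.eval t1 := hRt.trans (sub_dvd_eval_sub _ _ _)
  have hBB : R ∣ B.eval t - B.eval t1 := hRt.trans (sub_dvd_eval_sub _ _ _)
  have huξ : R ∣ u - ξ := by
    have h1 : R ∣ A.eval t1 * (u - ξ) := by
      have : A.eval t1 * (u - ξ) = (A.eval t * u - 3 * B.eval t) - (A.eval t1 * ξ - 3 * B.eval t1)
          - (A.eval t - A.eval t1) * u + 3 * (B.eval t - B.eval t1) := by ring
      rw [this]
      exact dvd_add (dvd_sub (dvd_sub hlin hlin1) (Dvd.dvd.mul_right hAA _)) (Dvd.dvd.mul_left hBB _)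
    exact (hR.dvd_or_dvd h1).resolve_left hA1
  set p := P.eval z with hp
  have hpξ : R ∣ p - ξ := by
    have : z - 0 ∣ P.eval z - P.eval 0 := sub_dvd_eval_sub _ _ _
    rw [sub_zero, hP0] at this
    exact hRz.trans this
  have hpu : R ∣ p - u := by
    have : p - u = (p - ξ) - (u - ξ) := by ring
    rw [this]; exact dvd_sub hpξ huξ
  have hQ : ¬ R ∣ irrQ (A.eval t) (B.eval t) u p := by
    intro h
    rw [irrQ_eq] at h
    have h' := (dvd_add_left (Dvd.dvd.mul_right hpu _)).1 h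
    rcases hR.dvd_or_dvd h' with h' | h'
    · have : (4 : ℤ) = 2 ^ 2 := by norm_num
      rw [this] at h'
      exact hR2 (hR.dvd_of_dvd_pow h')
    · exact hg h'
  have hsub := irrPhi_sub (A.eval t) (B.eval t) u p
  rw [hu, hPH z, zero_sub] at hsub
  have hdvd : R ^ (j * (n + 1)) ∣ (u - p) * irrQ (A.eval t) (B.eval t) u p := by
    rw [← hsub]
    refine ⟨-(e ^ 2 * (M ^ (n + 1) * H.eval z)), ?_⟩
    rw [hz, mul_pow, ← pow_mul]
    ring
  have hcop : IsCoprime (R ^ (j * (n + 1))) (irrQ (A.eval t) (B.eval t) u p) :=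
    IsCoprime.pow_left ((Irreducible.coprime_iff_not_dvd hR.irreducible).2 hQ)
  have hdvd' : R ^ (j * (n + 1)) ∣ u - p := hcop.dvd_of_dvd_mul_right hdvd
  have hdvd'' : |R| ^ (j * (n + 1)) ∣ u - p := by
    rw [← abs_pow]; exact (abs_dvd _ _).2 hdvd'
  have hR1 : 1 ≤ |R| := Int.one_le_abs hR0
  have hz1 : 1 ≤ |z| := Int.one_le_abs (mul_ne_zero hM (pow_ne_zero _ hR0))
  have hub : |u| ≤ CS * |z| ^ n := by
    refine (irr_root_bound _ _ _ hu).trans ?_
    rw [← hS z]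
    exact (le_abs_self _).trans (hCS z hz1)
  have hsize : |u - p| < |R| ^ (j * (n + 1)) := by
    calc |u - p| ≤ |u| + |p| := abs_sub _ _
      _ ≤ CS * |z| ^ n + CP * |z| ^ n := add_le_add hub (hCP z hz1)
      _ = ((CS + CP) * |M| ^ n) * |R| ^ (j * n) := by
          rw [hz, abs_mul, abs_pow, mul_pow, ← pow_mul]; ring
      _ < |R| ^ j * |R| ^ (j * n) := by
          exact mul_lt_mul_of_pos_right hj (by positivity)
      _ = |R| ^ (j * (n + 1)) := by rw [← pow_add]; congr 1; ring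
  have := Int.eq_zero_of_abs_lt_dvd hdvd'' hsize
  linarith

/-- **Hilbert irreducibility substitute.**  For a family `(A(t), B(t))` with
`A³ - B² = 1728 D0 D⁵` of "icosahedral type", every arithmetic progression `M ℤ` contains a `t`
such that the 3-division quartic of `(A(t), B(t))` has no integer root. -/
theorem irr_main (A B D U V : ℤ[X]) (D0 k a b c : ℤ) (hD0 : D0 ≠ 0) (hk : k ≠ 0) (hc : c ≠ 0)
    (h1 : A ^ 3 - B ^ 2 = C (1728 * D0) * D ^ 5) (h2 : U * A + V * D = C k)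
    (h3 : C a * D * derivative A - C b * A * derivative D = C c * B)
    (h4 : A.natDegree ≤ 20) (h4' : 4 ≤ D.natDegree) (h5 : D.eval 0 = 1) (M : ℤ) (hM : M ≠ 0) :
    ∃ t : ℤ, M ∣ t ∧ ∀ u : ℤ, irrPhi (A.eval t) (B.eval t) u ≠ 0 := by
  by_contra hcon
  push Not at hcon
  obtain ⟨t1, r, hrp, hMt1, hrN0, hrD, hrD2⟩ := irr_stepA A B D U V (1728 * D0) k a b c hk hc h1 h2 h3
    h5 (by omega) M hM (6 * D0 * k) (mul_ne_zero (mul_ne_zero (by norm_num) hD0) hk)
  set R : ℤ := (r : ℤ) with hRdef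
  have hR : Prime R := Nat.prime_iff_prime_int.1 hrp
  have hR6 : ¬ R ∣ 6 := fun h => hrN0 (Dvd.dvd.mul_right (Dvd.dvd.mul_right h _) _)
  have hR2 : ¬ R ∣ 2 := fun h => hR6 (h.trans ⟨3, by norm_num⟩)
  have hR3 : ¬ R ∣ 3 := fun h => hR6 (h.trans ⟨2, by norm_num⟩)
  have hRD0 : ¬ R ∣ D0 := fun h => hrN0 (Dvd.dvd.mul_right (Dvd.dvd.mul_left h _) _)
  have hRk : ¬ R ∣ k := fun h => hrN0 (Dvd.dvd.mul_left h _)
  have hRκ : ¬ R ∣ 1728 * D0 := by
    intro h
    rcases hR.dvd_or_dvd h with h | h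
    · have : (1728 : ℤ) = 2 ^ 6 * 3 ^ 3 := by norm_num
      rw [this] at h
      rcases hR.dvd_or_dvd h with h | h
      · exact hR2 (hR.dvd_of_dvd_pow h)
      · exact hR3 (hR.dvd_of_dvd_pow h)
    · exact hRD0 h
  have hDt : ∀ t : ℤ, R ^ 2 ∣ t - t1 → R ∣ D.eval t ∧ ¬ R ^ 2 ∣ D.eval t := by
    intro t ht
    have hd : R ^ 2 ∣ D.eval t - D.eval t1 := ht.trans (sub_dvd_eval_sub _ _ _)
    constructor
    · have : D.eval t = (D.eval t - D.eval t1) + D.eval t1 := by ring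
      rw [this]
      exact dvd_add ((dvd_pow_self R (by norm_num)).trans hd) hrD
    · intro h
      apply hrD2
      have : D.eval t1 = D.eval t - (D.eval t - D.eval t1) := by ring
      rw [this]
      exact dvd_sub h hd
  have hAt : ∀ t : ℤ, R ^ 2 ∣ t - t1 → ¬ R ∣ A.eval t := by
    intro t ht h
    have e2 := congrArg (eval t) h2
    simp only [eval_mul, eval_add, eval_C] at e2
    apply hRk
    rw [← e2]
    exact dvd_add (Dvd.dvd.mul_left h _) (Dvd.dvd.mul_left (hDt t ht).1 _)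
  have hloc : ∀ t : ℤ, R ^ 2 ∣ t - t1 → ∀ u : ℤ, irrPhi (A.eval t) (B.eval t) u = 0 →
      ¬ R ∣ irrG (A.eval t) (B.eval t) u ∧ R ∣ A.eval t * u - 3 * B.eval t := by
    intro t ht u hu
    have e1 := congrArg (eval t) h1
    simp only [eval_mul, eval_sub, eval_pow, eval_C] at e1
    exact irr_local _ _ (D.eval t) (1728 * D0) R hR hR2 hR3 hRκ (hAt t ht) e1 (hDt t ht).1
      (hDt t ht).2 u hu
  obtain ⟨ξ, hξ⟩ := hcon t1 hMt1
  set e : ℤ := 4 * irrG (A.eval t1) (B.eval t1) ξ with he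
  have he0 : e ≠ 0 := by
    intro h0
    have := (hloc t1 (by simp) ξ hξ).1
    apply this
    have h' : irrG (A.eval t1) (B.eval t1) ξ = 0 := by
      rcases mul_eq_zero.1 (he ▸ h0 : 4 * irrG (A.eval t1) (B.eval t1) ξ = 0) with h | h
      · norm_num at h
      · exact h
    rw [h']; exact dvd_zero _
  set L : ℤ[X] := C t1 + C (e ^ 2) * X with hL
  set S : ℤ[X] := (C 15 + C 9 * A ^ 2 + C 8 * B ^ 2).comp L with hSdef
  have hS : ∀ z : ℤ,
      S.eval z = 15 + 9 * A.eval (t1 + e ^ 2 * z) ^ 2 + 8 * B.eval (t1 + e ^ 2 * z) ^ 2 := by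
    intro z
    simp only [hSdef, hL, eval_comp, eval_add, eval_mul, eval_pow, eval_C, eval_X]
  set n := S.natDegree with hn
  obtain ⟨P, H, hPd, hP0, hPH⟩ := irr_taylor A B t1 ξ hξ n
  rw [← he] at hPH
  obtain ⟨CS, hCS0, hCS⟩ := irr_growth S n le_rfl
  obtain ⟨CP, hCP0, hCP⟩ := irr_growth P n hPd
  set Ξ : ℤ[X] := irrPhi (A.comp L) (B.comp L) P with hΞ
  have hΞeval : ∀ z : ℤ, Ξ.eval z
      = irrPhi (A.eval (t1 + e ^ 2 * z)) (B.eval (t1 + e ^ 2 * z)) (P.eval z) := by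
    intro z
    simp only [hΞ, hL, irrPhi, eval_comp, eval_add, eval_sub, eval_mul, eval_pow, eval_C, eval_X,
      eval_ofNat]
  set j0 : ℕ := ((CS + CP) * |M| ^ n).toNat + 2 with hj0
  have hRabs : (2 : ℤ) ≤ |R| := by
    rw [hRdef, Nat.abs_cast]; exact_mod_cast hrp.two_le
  have hroot : ∀ i : ℕ, Ξ.IsRoot (M * R ^ (i + j0)) := by
    intro i
    set j := i + j0 with hjdef
    have hj2 : 2 ≤ j := by omega
    have hj : (CS + CP) * |M| ^ n < |R| ^ j := by
      have h1' : (CS + CP) * |M| ^ n ≤ (((CS + CP) * |M| ^ n).toNat : ℤ) := Int.self_le_toNat _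
      have h2' : ((((CS + CP) * |M| ^ n).toNat : ℕ) : ℤ) < (j : ℤ) := by
        have : ((CS + CP) * |M| ^ n).toNat < j := by omega
        exact_mod_cast this
      have h3' : (j : ℤ) < 2 ^ j := by exact_mod_cast Nat.lt_two_pow_self
      have h4'' : (2 : ℤ) ^ j ≤ |R| ^ j := pow_le_pow_left₀ (by norm_num) hRabs j
      linarith
    have hMt : M ∣ t1 + e ^ 2 * (M * R ^ j) :=
      dvd_add hMt1 (Dvd.dvd.mul_left (Dvd.intro _ rfl) _)
    obtain ⟨u, hu⟩ := hcon _ hMt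
    have huP := irr_key A B R t1 ξ M hR hR2 (hAt t1 (by simp)) hloc hξ e n P H S hP0 hPH hS CS CP hCS
      hCP hM j hj2 hj u hu
    rw [IsRoot.def, hΞeval, ← huP]
    exact hu
  have hinj : Function.Injective (fun i : ℕ => M * R ^ (i + j0)) := by
    intro x y hxy
    have h1' : R ^ (x + j0) = R ^ (y + j0) := mul_left_cancel₀ hM hxy
    have h2' : (r : ℤ) ^ (x + j0) = (r : ℤ) ^ (y + j0) := h1'
    have h3' : r ^ (x + j0) = r ^ (y + j0) := by exact_mod_cast h2'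
    have := Nat.pow_right_injective hrp.two_le h3'
    omega
  have hinf : (Set.range (fun i : ℕ => M * R ^ (i + j0))).Infinite :=
    Set.infinite_range_of_injective hinj
  have hΞ0 : Ξ = 0 := by
    apply eq_zero_of_infinite_isRoot
    refine hinf.mono ?_
    rintro _ ⟨i, rfl⟩
    exact hroot i
  exact irr_no_int_poly_root A B D U V D0 k a b c hD0 hk hc h1 h2 h3 h4 h4' t1 (e ^ 2)
    (pow_ne_zero 2 he0) P hΞ0

end Fermat.Agent.S52
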