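import Fermat.Agent.S52.Irred.Ident
import Fermat.Agent.S52.Irred.Val

/-!
# S52, block (I): local analysis at a prime `r` with `v_r(D) = 1`, and an archimedean root bound
-/

set_option autoImplicit false

namespace Fermat.Agent.S52

theorem irr_local (a b d κ : ℤ) (r : ℤ) (hr : Prime r) (h2 : ¬ r ∣ 2) (h3 : ¬ r ∣ 3)
    (hκ : ¬ r ∣ κ) (ha : ¬ r ∣ a) (hE : a ^ 3 - b ^ 2 = κ * d ^ 5) (hd : r ∣ d)
    (hd2 : ¬ r ^ 2 ∣ d) (u : ℤ) (hu : irrPhi a b u = 0) :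
    ¬ r ∣ irrG a b u ∧ r ∣ a * u - 3 * b := by
  obtain ⟨d1, rfl⟩ := hd
  have hd1 : ¬ r ∣ d1 := by
    rintro ⟨d2, rfl⟩
    exact hd2 ⟨d2, by ring⟩
  have hE' : ¬ r ∣ κ * d1 ^ 5 := by
    intro h
    rcases hr.dvd_or_dvd h with h | h
    · exact hκ h
    · exact hd1 (hr.dvd_of_dvd_pow h)
  have hE5 : a ^ 3 - b ^ 2 = r ^ 5 * (κ * d1 ^ 5) := by rw [hE]; ring
  have hid := irr_val_identity a b u hu
  rw [hE5] at hid
  have hg : ¬ r ∣ irrG a b u := irr_not_dvd_G hr h2 h3 ha hE' hid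
  refine ⟨hg, ?_⟩
  have hrE : r ∣ a ^ 3 - b ^ 2 := by rw [hE5]; exact Dvd.dvd.mul_right (dvd_pow_self r (by norm_num)) _
  have hn := irrPhi_node a b u
  rw [hu, mul_zero] at hn
  have h1 : r ∣ (a * u + b) ^ 3 * (a * u - 3 * b) := by
    have : (a * u + b) ^ 3 * (a * u - 3 * b)
        = (a ^ 3 - b ^ 2) * (6 * a ^ 2 * u ^ 2 + 8 * a * b * u + 3 * (a ^ 3 + b ^ 2)) := by
      linear_combination -hn
    rw [this]
    exact Dvd.dvd.mul_right hrE _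
  rcases hr.dvd_or_dvd h1 with h1 | h1
  · exfalso
    have h1' := hr.dvd_of_dvd_pow h1
    have hgn := irrG_node a b u
    have : r ∣ a ^ 3 * irrG a b u := by
      rw [hgn]
      exact dvd_sub (Dvd.dvd.mul_right (Dvd.dvd.pow h1' (by norm_num)) _) (Dvd.dvd.mul_right hrE _)
    rcases hr.dvd_or_dvd this with h | h
    · exact ha (hr.dvd_of_dvd_pow h)
    · exact hg h
  · exact h1

/-- crude archimedean bound for the roots of the quartic. -/
theorem irr_root_bound (a b u : ℤ) (hu : irrPhi a b u = 0) : |u| ≤ 15 + 9 * a ^ 2 + 8 * b ^ 2 := by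
  by_contra hcon
  push Not at hcon
  have hu' : u ^ 4 = 6 * a * u ^ 2 + 8 * b * u + 3 * a ^ 2 := by
    simp only [irrPhi] at hu; linear_combination hu
  set w := |u| with hw
  have hw4 : w ^ 4 = u ^ 4 := by rw [hw]; exact (Even.pow_abs (by decide) u)
  have hw2 : w ^ 2 = u ^ 2 := by rw [hw]; exact sq_abs u
  have h1 : 6 * a * u ^ 2 ≤ (3 + 3 * a ^ 2) * w ^ 2 := by
    rw [hw2]; nlinarith [sq_nonneg (a - 1), sq_nonneg u]
  have h2 : 8 * b * u ≤ (4 + 4 * b ^ 2) * w := by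
    have hbu : b * u ≤ |b| * w := by
      rw [hw, ← abs_mul]; exact le_abs_self _
    have hb : 2 * |b| ≤ 1 + b ^ 2 := by
      have := sq_nonneg (|b| - 1)
      have hb2 : |b| ^ 2 = b ^ 2 := sq_abs b
      nlinarith
    have hw0 : 0 ≤ w := abs_nonneg u
    nlinarith
  have hw15 : 15 ≤ w := by nlinarith [sq_nonneg a, sq_nonneg b]
  have hw0 : 0 < w := by linarith
  have key : w ^ 4 ≤ (3 + 3 * a ^ 2) * w ^ 2 + (4 + 4 * b ^ 2) * w + 3 * a ^ 2 := by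
    rw [hw4, hu']; linarith
  have hw2' : w ^ 2 ≤ w ^ 3 := by nlinarith [sq_nonneg w]
  have hw1' : w ≤ w ^ 3 := by nlinarith [sq_nonneg w]
  have hw0' : 1 ≤ w ^ 3 := by nlinarith [sq_nonneg w]
  have key2 : w ^ 4 ≤ (7 + 6 * a ^ 2 + 4 * b ^ 2) * w ^ 3 := by
    nlinarith [sq_nonneg a, sq_nonneg b]
  have hw3 : 0 < w ^ 3 := by positivity
  have : w ≤ 7 + 6 * a ^ 2 + 4 * b ^ 2 := by
    have h4 : w ^ 4 = w * w ^ 3 := by ring
    rw [h4] at key2
    exact le_of_mul_le_mul_right key2 hw3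
  nlinarith [sq_nonneg a, sq_nonneg b]

end Fermat.Agent.S52
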